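import Mathlib
import Fermat.Prelude.Def_ModularForm_HeckeOperator
import Fermat.Prelude.Thm_CongruenceSubgroup_one_mem_strictPeriods_Gamma0
import Fermat.Prelude.Def_FLTPrelim_Modularity

/-!
# GATE-L / S58, node STAB (report 205 (1)): the `q`-stabilisation of a normalized eigenform

For a normalized eigenform `g` of level `Γ₀(M)` and weight `2`, a prime `q ∤ M` and a root `β` of
`X² - a_q(g) X + q`, the form `g(z) - β g(q z)` is a normalized eigenform (in the sense of the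
prelude structure `CuspForm.IsNormalizedEigenform`) of level `Γ₀(M q)`, with the same
coefficients `a_n` for all `n` prime to `q`.  Consequently "raising the level is free":
`exists_raise`, `exists_raise_mul` and `exists_raise_of_dvd`.

Contents:
* `restrict` : restriction of a cusp form to a smaller level group;
* `Vq q g` : the form `z ↦ g (q z)` of level `Γ₀(M q)`, with `qCoeff_Vq`;
* `stab q β g = g - β • Vq q g`, with `qCoeff_stab`;
* `StabAlg` : the coefficient algebra (no modular forms);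
* `isNormalizedEigenform_stab` and the `exists_raise*` corollaries.
-/

set_option autoImplicit false

open UpperHalfPlane ModularForm
open scoped MatrixGroups ModularForm Manifold

namespace Fermat.Agent.GE.Mod.Stab

open Matrix Matrix.SpecialLinearGroup ConjAct Pointwise CongruenceSubgroup ModularFormClass

/-! ### Restriction to a smaller level group -/

/-- Restriction of a cusp form to a smaller level group. -/
noncomputable def restrict {Γ Γ' : Subgroup (GL (Fin 2) ℝ)} {k : ℤ} (h : Γ' ≤ Γ)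
    (F : CuspForm Γ k) : CuspForm Γ' k where
  toFun := F
  slash_action_eq' γ hγ := F.slash_action_eq' γ (h hγ)
  holo' := F.holo'
  zero_at_cusps' hc := F.zero_at_cusps' (hc.mono h)

@[simp] theorem restrict_apply {Γ Γ' : Subgroup (GL (Fin 2) ℝ)} {k : ℤ} (h : Γ' ≤ Γ)
    (F : CuspForm Γ k) (τ : ℍ) : restrict h F τ = F τ := rfl

theorem coe_restrict {Γ Γ' : Subgroup (GL (Fin 2) ℝ)} {k : ℤ} (h : Γ' ≤ Γ)
    (F : CuspForm Γ k) : (restrict h F : ℍ → ℂ) = F := rfl

/-- The image of `Γ₀(N)` in `GL(2, ℝ)`. -/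
abbrev G0 (N : ℕ) : Subgroup (GL (Fin 2) ℝ) :=
  Subgroup.map (mapGL ℝ) (Gamma0 N)

theorem Gamma0_mul_le (M q : ℕ) : Gamma0 (M * q) ≤ Gamma0 M := by
  intro γ hγ
  rw [Gamma0_mem] at hγ ⊢
  rw [CharP.intCast_eq_zero_iff (ZMod (M * q)) (M * q)] at hγ
  rw [CharP.intCast_eq_zero_iff (ZMod M) M]
  exact (Dvd.intro _ (by push_cast; rfl)).trans hγ

theorem G0_mul_le (M q : ℕ) : G0 (M * q) ≤ G0 M :=
  Subgroup.map_mono (Gamma0_mul_le M q)

/-! ### The operator `V_q` -/

/-- `α γ = δ α` for `γ = [a, b; M q c', d] ∈ Γ₀(M q)`, `δ = [a, q b; M c', d] ∈ Γ₀(M)`,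
`α = diag(q, 1)`. -/
theorem heckeDiag_mul_mem (M q : ℕ) (hq : q ≠ 0) (γ : SL(2, ℤ)) (hγ : γ ∈ Gamma0 (M * q)) :
    ∃ δ ∈ Gamma0 M, heckeDiagMatrix q * mapGL ℝ γ = mapGL ℝ δ * heckeDiagMatrix q := by
  rw [Gamma0_mem, CharP.intCast_eq_zero_iff (ZMod (M * q)) (M * q)] at hγ
  obtain ⟨c', hc'⟩ := hγ
  have hdet : γ 0 0 * γ 1 1 - γ 0 1 * γ 1 0 = 1 := by
    have := γ.det_coe
    rwa [Matrix.det_fin_two] at this
  have hdet' : (!![γ 0 0, q * γ 0 1; M * c', γ 1 1] : Matrix (Fin 2) (Fin 2) ℤ).det = 1 := by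
    rw [Matrix.det_fin_two_of]
    rw [hc'] at hdet
    push_cast at hdet
    linear_combination hdet
  let δ : SL(2, ℤ) := ⟨!![γ 0 0, q * γ 0 1; M * c', γ 1 1], hdet'⟩
  have hδ00 : (δ 0 0 : ℤ) = γ 0 0 := rfl
  have hδ01 : (δ 0 1 : ℤ) = q * γ 0 1 := rfl
  have hδ10 : (δ 1 0 : ℤ) = M * c' := rfl
  have hδ11 : (δ 1 1 : ℤ) = γ 1 1 := rfl
  refine ⟨δ, ?_, ?_⟩
  · rw [Gamma0_mem, CharP.intCast_eq_zero_iff (ZMod M) M, hδ10]
    exact Dvd.intro _ rfl
  · apply Matrix.GeneralLinearGroup.ext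
    intro i j
    simp only [Matrix.GeneralLinearGroup.coe_mul, val_heckeDiagMatrix hq, mapGL_coe_matrix]
    fin_cases i <;> fin_cases j <;>
      simp [Matrix.mul_apply, Fin.sum_univ_two, hδ00, hδ01, hδ10, hδ11, hc'] <;> ring

theorem G0_le_conj (M q : ℕ) (hq : q ≠ 0) :
    G0 (M * q) ≤ toConjAct (heckeDiagMatrix q)⁻¹ • G0 M := by
  rintro _ ⟨γ, hγ, rfl⟩
  obtain ⟨δ, hδM, hδ⟩ := heckeDiag_mul_mem M q hq γ hγ
  rw [Subgroup.mem_pointwise_smul_iff_inv_smul_mem, ConjAct.smul_def]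
  simp only [map_inv, inv_inv, ConjAct.ofConjAct_toConjAct]
  refine ⟨δ, hδM, ?_⟩
  rw [hδ, mul_assoc, mul_inv_cancel, mul_one]

/-- The operator `V_q`: `(V_q g)(z) = g(q z)`, a cusp form of level `Γ₀(M q)`.  (Junk value `0`
for `q = 0`.) -/
noncomputable def Vq (q : ℕ) {M : ℕ} (g : CuspForm (Gamma0 M) 2) :
    CuspForm (Gamma0 (M * q)) 2 :=
  if hq : q = 0 then 0 else
    (q : ℂ)⁻¹ • restrict (G0_le_conj M q hq) (CuspForm.translate g (heckeDiagMatrix q))

theorem Vq_apply {q : ℕ} (hq : q ≠ 0) {M : ℕ} (g : CuspForm (Gamma0 M) 2) (τ : ℍ) :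
    Vq q g τ = g (heckeDiagMatrix q • τ) := by
  have hq' : (q : ℂ) ≠ 0 := by exact_mod_cast hq
  rw [Vq, dif_neg hq]
  change (q : ℂ)⁻¹ • (((g : ℍ → ℂ) ∣[(2 : ℤ)] heckeDiagMatrix q) τ) = _
  rw [slash_heckeDiagMatrix_apply 2 hq, smul_eq_mul, show (2 : ℤ) - 1 = 1 by norm_num, zpow_one,
    ← mul_assoc, inv_mul_cancel₀ hq', one_mul]

open Function in
/-- The `q`-expansion of `V_q g` is obtained from that of `g` by `𝕢 ↦ 𝕢 ^ q`. -/
theorem qCoeff_Vq {q : ℕ} (hq : q ≠ 0) {M : ℕ} (g : CuspForm (Gamma0 M) 2) (n : ℕ) :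
    qCoeff (Vq q g) n = if q ∣ n then qCoeff g (n / q) else 0 := by
  unfold qCoeff
  symm
  refine ModularFormClass.qExpansion_coeff_unique (f := Vq q g)
    (c := fun n => if q ∣ n then (qExpansion 1 (g : ℍ → ℂ)).coeff (n / q) else 0) one_pos
    (CongruenceSubgroup.one_mem_strictPeriods_Gamma0 (M * q)) (fun τ => ?_) n
  rw [Vq_apply hq]
  have : Fact (IsCusp OnePoint.infty (G0 M)) :=
    ⟨Subgroup.isCusp_of_mem_strictPeriods one_pos
      (CongruenceSubgroup.one_mem_strictPeriods_Gamma0 M)⟩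
  have h1 := ModularForm.hasSum_qExpansion (f := g) one_pos
    (CongruenceSubgroup.one_mem_strictPeriods_Gamma0 M) (heckeDiagMatrix q • τ)
  have hqp : Periodic.qParam 1 ((heckeDiagMatrix q • τ : ℍ) : ℂ) =
      Periodic.qParam 1 (τ : ℂ) ^ q := by
    rw [coe_heckeDiagMatrix_smul hq, Periodic.qParam, Periodic.qParam, ← Complex.exp_nat_mul]
    congr 1
    ring
  have hinj : Injective (fun m : ℕ => q * m) := fun a b h => Nat.eq_of_mul_eq_mul_left
    (Nat.pos_of_ne_zero hq) h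
  rw [← hinj.hasSum_iff]
  · convert h1 using 1
    funext m
    simp only [Function.comp_apply, dvd_mul_right, if_true, Nat.mul_div_cancel_left _
      (Nat.pos_of_ne_zero hq), smul_eq_mul, hqp, pow_mul]
  · intro x hx
    have : ¬ q ∣ x := fun ⟨m, hm⟩ => hx ⟨m, hm.symm⟩
    simp [this]

/-! ### The stabilisation -/

/-- The `q`-stabilisation `g - β · V_q g`, of level `Γ₀(M q)`. -/
noncomputable def stab (q : ℕ) (β : ℂ) {M : ℕ} (g : CuspForm (Gamma0 M) 2) :
    CuspForm (Gamma0 (M * q)) 2 :=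
  restrict (G0_mul_le M q) g - β • Vq q g

theorem qCoeff_restrict {M q : ℕ} (g : CuspForm (Gamma0 M) 2) (n : ℕ) :
    qCoeff (restrict (G0_mul_le M q) g) n = qCoeff g n := rfl

theorem qCoeff_stab {q : ℕ} (hq : q ≠ 0) (β : ℂ) {M : ℕ} (g : CuspForm (Gamma0 M) 2) (n : ℕ) :
    qCoeff (stab q β g) n = qCoeff g n - β * (if q ∣ n then qCoeff g (n / q) else 0) := by
  have hper := CongruenceSubgroup.one_mem_strictPeriods_Gamma0 (M * q)
  have h1 : qExpansion 1 (stab q β g : ℍ → ℂ) =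
      qExpansion 1 (restrict (G0_mul_le M q) g : ℍ → ℂ) - β • qExpansion 1 (Vq q g : ℍ → ℂ) := by
    have e1 : (stab q β g : ℍ → ℂ) =
        (restrict (G0_mul_le M q) g : ℍ → ℂ) - ((β • Vq q g : CuspForm (Gamma0 (M * q)) 2) : ℍ → ℂ) :=
      rfl
    have e2 : ((β • Vq q g : CuspForm (Gamma0 (M * q)) 2) : ℍ → ℂ) = β • (Vq q g : ℍ → ℂ) := rfl
    rw [e1, ModularForm.qExpansion_sub one_pos hper (restrict (G0_mul_le M q) g) (β • Vq q g),
      e2, ModularForm.qExpansion_smul one_pos hper β (Vq q g)]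
  have h2 := qCoeff_Vq hq g n
  unfold qCoeff at h2 ⊢
  rw [h1, map_sub, PowerSeries.coeff_smul, h2]
  rfl

/-! ### The coefficient algebra -/

section StabAlg

variable {K : Type*} [Field K]

/-- The coefficients of the stabilisation. -/
def stabCoeff (q : ℕ) (β : K) (a : ℕ → K) (n : ℕ) : K :=
  a n - β * (if q ∣ n then a (n / q) else 0)

theorem stabCoeff_of_not_dvd {q : ℕ} (β : K) (a : ℕ → K) {n : ℕ} (h : ¬ q ∣ n) :
    stabCoeff q β a n = a n := by
  simp [stabCoeff, h]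

theorem stabCoeff_of_dvd {q : ℕ} (β : K) (a : ℕ → K) {n : ℕ} (h : q ∣ n) :
    stabCoeff q β a n = a n - β * a (n / q) := by
  simp [stabCoeff, h]

theorem stabCoeff_one {q : ℕ} (hq : q.Prime) (β : K) {a : ℕ → K} (h1 : a 1 = 1) :
    stabCoeff q β a 1 = 1 := by
  rw [stabCoeff_of_not_dvd β a (by simpa using hq.one_lt.ne'), h1]

theorem stabCoeff_mul {q : ℕ} (hq : q.Prime) (β : K) {a : ℕ → K}
    (hmul : ∀ m n : ℕ, m.Coprime n → a (m * n) = a m * a n) {m n : ℕ} (hmn : m.Coprime n) :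
    stabCoeff q β a (m * n) = stabCoeff q β a m * stabCoeff q β a n := by
  by_cases hm : q ∣ m
  · have hn : ¬ q ∣ n := fun hn => hq.one_lt.ne' (Nat.eq_one_of_dvd_coprimes hmn hm hn)
    rw [stabCoeff_of_dvd β a (hm.mul_right n), stabCoeff_of_dvd β a hm,
      stabCoeff_of_not_dvd β a hn, hmul m n hmn, ← Nat.div_mul_right_comm hm,
      hmul (m / q) n (Nat.Coprime.coprime_div_left hmn hm)]
    ring
  · by_cases hn : q ∣ n
    · rw [stabCoeff_of_dvd β a (hn.mul_left m), stabCoeff_of_dvd β a hn,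
        stabCoeff_of_not_dvd β a hm, hmul m n hmn, Nat.mul_div_assoc m hn,
        hmul m (n / q) (Nat.Coprime.coprime_div_right hmn hn)]
      ring
    · have hmn' : ¬ q ∣ m * n := fun h => (hq.dvd_mul.mp h).elim hm hn
      rw [stabCoeff_of_not_dvd β a hmn', stabCoeff_of_not_dvd β a hm,
        stabCoeff_of_not_dvd β a hn, hmul m n hmn]

theorem stabCoeff_prime_pow_of_ne {q p : ℕ} (hq : q.Prime) (hp : p.Prime) (hpq : p ≠ q)
    (β : K) (a : ℕ → K) (r : ℕ) : stabCoeff q β a (p ^ r) = a (p ^ r) :=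
  stabCoeff_of_not_dvd β a fun h =>
    hpq ((Nat.prime_dvd_prime_iff_eq hq hp).mp (hq.dvd_of_dvd_pow h)).symm

/-- At the prime `q` itself the stabilised coefficients satisfy the one-term recursion. -/
theorem stabCoeff_prime_pow_self {q : ℕ} (hq : q.Prime) {β : K} {a : ℕ → K} (h1 : a 1 = 1)
    (hrec : ∀ r : ℕ, a (q ^ (r + 2)) = a q * a (q ^ (r + 1)) - q * a (q ^ r))
    (hβ : β ^ 2 - a q * β + q = 0) (r : ℕ) :
    stabCoeff q β a (q ^ (r + 2)) = stabCoeff q β a q * stabCoeff q β a (q ^ (r + 1)) := by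
  have hdiv : ∀ k : ℕ, q ^ (k + 1) / q = q ^ k := fun k => by
    rw [pow_succ, Nat.mul_div_cancel _ hq.pos]
  have hq1 : stabCoeff q β a q = a q - β := by
    rw [stabCoeff_of_dvd β a dvd_rfl, Nat.div_self hq.pos, h1, mul_one]
  rw [stabCoeff_of_dvd β a (dvd_pow_self q (by omega)), hdiv,
    stabCoeff_of_dvd β a (dvd_pow_self q (by omega)), hdiv, hq1, hrec r]
  linear_combination (-(a (q ^ r))) * hβ

end StabAlg

/-! ### The stabilisation is a normalized eigenform -/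

theorem qCoeff_stab_eq_stabCoeff {q : ℕ} (hq : q ≠ 0) (β : ℂ) {M : ℕ}
    (g : CuspForm (Gamma0 M) 2) (n : ℕ) :
    qCoeff (stab q β g) n = stabCoeff q β (fun n => qCoeff g n) n :=
  qCoeff_stab hq β g n

/-- The stabilisation has the same coefficients `a_n` for `n` not divisible by `q`. -/
theorem qCoeff_stab_of_not_dvd {q : ℕ} (hq : q ≠ 0) (β : ℂ) {M : ℕ}
    (g : CuspForm (Gamma0 M) 2) {n : ℕ} (hn : ¬ q ∣ n) :
    qCoeff (stab q β g) n = qCoeff g n := by
  rw [qCoeff_stab_eq_stabCoeff hq, stabCoeff_of_not_dvd _ _ hn]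

/-- **STAB.**  The `q`-stabilisation of a normalized eigenform of level `M`, `q ∤ M`, with respect
to a root `β` of `X² - a_q X + q`, is a normalized eigenform of level `M q`. -/
theorem isNormalizedEigenform_stab {M q : ℕ} (hq : q.Prime) (hqM : ¬ q ∣ M) {β : ℂ}
    {g : CuspForm (Gamma0 M) 2} (hg : g.IsNormalizedEigenform)
    (hβ : β ^ 2 - qCoeff g q * β + q = 0) : (stab q β g).IsNormalizedEigenform where
  qCoeff_one := by
    rw [qCoeff_stab_eq_stabCoeff hq.ne_zero]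
    exact stabCoeff_one hq β hg.qCoeff_one
  qCoeff_mul_of_coprime m n hmn := by
    simp only [qCoeff_stab_eq_stabCoeff hq.ne_zero]
    exact stabCoeff_mul hq β hg.qCoeff_mul_of_coprime hmn
  qCoeff_prime_pow_of_not_dvd p r hp hpN := by
    have hpq : p ≠ q := fun h => hpN (h ▸ Dvd.intro_left M rfl)
    have hpM : ¬ p ∣ M := fun h => hpN (h.mul_right q)
    simp only [qCoeff_stab_eq_stabCoeff hq.ne_zero]
    have h1 := stabCoeff_prime_pow_of_ne hq hp hpq β (fun n => qCoeff g n)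
    rw [h1 (r + 2), h1 (r + 1), h1 r, ← pow_one p, h1 1, pow_one]
    exact hg.qCoeff_prime_pow_of_not_dvd p r hp hpM
  qCoeff_prime_pow_of_dvd p r hp hpN := by
    simp only [qCoeff_stab_eq_stabCoeff hq.ne_zero]
    rcases eq_or_ne p q with rfl | hpq
    · exact stabCoeff_prime_pow_self hp hg.qCoeff_one
        (fun r => hg.qCoeff_prime_pow_of_not_dvd p r hp hqM) hβ r
    · have hpM : p ∣ M := (hp.dvd_mul.mp hpN).resolve_right fun h =>
        hpq ((Nat.prime_dvd_prime_iff_eq hp hq).mp h)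
      have h1 := stabCoeff_prime_pow_of_ne hq hp hpq β (fun n => qCoeff g n)
      rw [h1 (r + 2), h1 (r + 1), ← pow_one p, h1 1, pow_one]
      exact hg.qCoeff_prime_pow_of_dvd p r hp hpM

/-- **Raising the level by one prime is free.** -/
theorem exists_raise {M q : ℕ} (hq : q.Prime) (hqM : ¬ q ∣ M)
    {g : CuspForm (Gamma0 M) 2} (hg : g.IsNormalizedEigenform) :
    ∃ g' : CuspForm (Gamma0 (M * q)) 2, g'.IsNormalizedEigenform ∧
      ∀ n : ℕ, ¬ q ∣ n → qCoeff g' n = qCoeff g n := by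
  obtain ⟨β, hβ⟩ : ∃ β : ℂ, β ^ 2 - qCoeff g q * β + q = 0 := by
    obtain ⟨β, hβ⟩ := exists_quadratic_eq_zero (K := ℂ) (a := 1) (b := -qCoeff g q) (c := q)
      one_ne_zero (IsAlgClosed.exists_eq_mul_self _)
    exact ⟨β, by linear_combination hβ⟩
  exact ⟨stab q β g, isNormalizedEigenform_stab hq hqM hg hβ,
    fun n hn => qCoeff_stab_of_not_dvd hq.ne_zero β g hn⟩

/-- Transport of a normalized eigenform along an equality of levels. -/
theorem exists_cast {M M' : ℕ} (h : M = M') {g : CuspForm (Gamma0 M) 2}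
    (hg : g.IsNormalizedEigenform) :
    ∃ g' : CuspForm (Gamma0 M') 2, g'.IsNormalizedEigenform ∧
      ∀ n : ℕ, qCoeff g' n = qCoeff g n := by
  subst h
  exact ⟨g, hg, fun _ => rfl⟩

/-- **Raising the level by a squarefree cofactor is free.** -/
theorem exists_raise_mul : ∀ (d : ℕ) {M : ℕ}, Squarefree (M * d) →
    ∀ {g : CuspForm (Gamma0 M) 2}, g.IsNormalizedEigenform →
    ∃ g' : CuspForm (Gamma0 (M * d)) 2, g'.IsNormalizedEigenform ∧
      ∀ n : ℕ, n.Coprime d → qCoeff g' n = qCoeff g n := by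
  intro d
  induction d using Nat.strong_induction_on with
  | _ d ih =>
    intro M hsq g hg
    rcases eq_or_ne d 1 with rfl | hd1
    · obtain ⟨g', hg', h⟩ := exists_cast (mul_one M).symm hg
      exact ⟨g', hg', fun n _ => h n⟩
    · -- a prime factor `q` of `d`
      set q := d.minFac with hqdef
      have hq : q.Prime := Nat.minFac_prime hd1
      obtain ⟨d', hd'⟩ : q ∣ d := Nat.minFac_dvd d
      have hd0 : d ≠ 0 := by
        rintro rfl
        simp at hsq
      have hd'0 : d' ≠ 0 := by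
        rintro rfl
        exact hd0 (by rw [hd', mul_zero])
      have hd'lt : d' < d := by
        rw [hd']
        exact lt_mul_of_one_lt_left (Nat.pos_of_ne_zero hd'0) hq.one_lt
      have hlev : M * d = M * q * d' := by rw [hd', mul_assoc]
      have hqM : ¬ q ∣ M := by
        intro hqM
        have h2 : q * q ∣ M * d := mul_dvd_mul hqM (Nat.minFac_dvd d)
        exact hq.not_isUnit (hsq q h2)
      have hqd' : ¬ q ∣ d' := by
        intro hqd'
        have h2 : q * q ∣ M * d := by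
          rw [hd']
          exact (mul_dvd_mul_left q hqd').trans (Dvd.intro_left M rfl)
        exact hq.not_isUnit (hsq q h2)
      obtain ⟨g₁, hg₁, h₁⟩ := exists_raise hq hqM hg
      obtain ⟨g₂, hg₂, h₂⟩ := ih d' hd'lt (M := M * q) (hlev ▸ hsq) hg₁
      obtain ⟨g', hg', h'⟩ := exists_cast hlev.symm hg₂
      refine ⟨g', hg', fun n hn => ?_⟩
      have hnq : ¬ q ∣ n := fun h =>
        hq.one_lt.ne' (Nat.eq_one_of_dvd_coprimes hn h (Nat.minFac_dvd d))
      have hnd' : n.Coprime d' := Nat.Coprime.coprime_dvd_right (Dvd.intro_left q hd'.symm) hn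
      rw [h' n, h₂ n hnd', h₁ n hnq]

/-- **Raising the level to a squarefree multiple is free.**  This is the form used by the top
file of S58 with `L = W.conductorLevel`. -/
theorem exists_raise_of_dvd {M L : ℕ} (hML : M ∣ L) (hL : Squarefree L)
    {g : CuspForm (Gamma0 M) 2} (hg : g.IsNormalizedEigenform) :
    ∃ g' : CuspForm (Gamma0 L) 2, g'.IsNormalizedEigenform ∧
      ∀ ℓ : ℕ, ℓ.Prime → ¬ ℓ ∣ L → qCoeff g' ℓ = qCoeff g ℓ := by
  obtain ⟨d, rfl⟩ := hML
  obtain ⟨g', hg', h⟩ := exists_raise_mul d hL hg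
  refine ⟨g', hg', fun ℓ hℓ hℓL => h ℓ ?_⟩
  exact (Nat.Prime.coprime_iff_not_dvd hℓ).mpr fun hd => hℓL (Dvd.dvd.mul_left hd M)

end Fermat.Agent.GE.Mod.Stab
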