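import Mathlib
import Fermat.Prelude.Def_CuspForm_Newforms

/-!
# GATE-L / S58, node MINLEVEL (report 205 (0))

Every normalized eigenform `f` of level `N` has a *newform companion*: a level `M ∣ N`, minimal for
divisibility among the levels at which the good eigensystem of `f` occurs, and a witness `g` of
level `M` which is a newform in the sense of the prelude (`CuspForm.IsNewform`).  No Atkin–Lehner
theory is used: it is a well-founded minimum for the strict divisibility relation on `ℕ`.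
-/

set_option autoImplicit false

open ModularFormClass

namespace Fermat.Agent.GE.Mod.MinLevel

open CuspForm

/-- Transitivity of "the good eigensystem occurs at": if the good eigensystem of `f` (level `N`)
occurs at `M ∣ N` with witness `g`, and the good eigensystem of `g` occurs at `M'`, then the good
eigensystem of `f` occurs at `M'`. -/
theorem goodEigensystemOccursAt_trans {N M M' : ℕ}
    {f : CuspForm (CongruenceSubgroup.Gamma0 N) 2}
    {g : CuspForm (CongruenceSubgroup.Gamma0 M) 2} (hMN : M ∣ N)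
    (hg : ∀ ℓ : ℕ, ℓ.Prime → ¬ ℓ ∣ N → qCoeff g ℓ = qCoeff f ℓ)
    (h : GoodEigensystemOccursAt g M') : GoodEigensystemOccursAt f M' := by
  obtain ⟨g', hg'e, hg'⟩ := h
  refine ⟨g', hg'e, fun ℓ hℓ hℓN => ?_⟩
  rw [hg' ℓ hℓ (fun hℓM => hℓN (hℓM.trans hMN)), hg ℓ hℓ hℓN]

/-- **MINLEVEL.**  A normalized eigenform `f` of level `N` has a newform companion: a divisor
`M ∣ N` and a newform `g` of level `M` with `a_ℓ(g) = a_ℓ(f)` for all primes `ℓ ∤ N`. -/
theorem exists_isNewform_of_isNormalizedEigenform {N : ℕ}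
    {f : CuspForm (CongruenceSubgroup.Gamma0 N) 2} (hf : f.IsNormalizedEigenform) :
    ∃ M : ℕ, M ∣ N ∧ ∃ g : CuspForm (CongruenceSubgroup.Gamma0 M) 2, g.IsNewform ∧
      ∀ ℓ : ℕ, ℓ.Prime → ¬ ℓ ∣ N → qCoeff g ℓ = qCoeff f ℓ := by
  classical
  -- the set of admissible levels
  set S : Set ℕ := {M | M ∣ N ∧ GoodEigensystemOccursAt f M} with hS
  have hne : S.Nonempty := ⟨N, dvd_rfl, GoodEigensystemOccursAt.refl hf⟩
  have hwf : WellFounded (DvdNotUnit : ℕ → ℕ → Prop) := wellFounded_dvdNotUnit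
  obtain ⟨M, ⟨hMN, g, hge, hg⟩, hmin⟩ := hwf.has_min S hne
  refine ⟨M, hMN, g, ⟨hge, fun M' hM'M hne' hocc => ?_⟩, hg⟩
  have hM'S : M' ∈ S := ⟨hM'M.trans hMN, goodEigensystemOccursAt_trans hMN hg hocc⟩
  refine hmin M' hM'S ?_
  -- `M' ∣ M`, `M' ≠ M` gives `DvdNotUnit M' M`
  obtain ⟨x, hx⟩ := hM'M
  refine ⟨?_, x, ?_, hx⟩
  · rintro rfl
    exact hne' (by simpa using hx.symm)
  · intro hu
    rw [Nat.isUnit_iff] at hu
    exact hne' (by rw [hx, hu, mul_one])

/-- The same statement in the shape used by the top file of S58: starting from a modular model of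
level `N`, one obtains a newform of some level `M ∣ N` with the same `a_ℓ` for `ℓ ∤ N`. -/
theorem exists_isNewform_of_goodEigensystemOccursAt {N M₀ : ℕ}
    {f : CuspForm (CongruenceSubgroup.Gamma0 N) 2} (hM₀ : M₀ ∣ N)
    (h : GoodEigensystemOccursAt f M₀) :
    ∃ M : ℕ, M ∣ M₀ ∧ ∃ g : CuspForm (CongruenceSubgroup.Gamma0 M) 2, g.IsNewform ∧
      ∀ ℓ : ℕ, ℓ.Prime → ¬ ℓ ∣ N → qCoeff g ℓ = qCoeff f ℓ := by
  obtain ⟨g₀, hg₀e, hg₀⟩ := h
  obtain ⟨M, hM, g, hgn, hg⟩ := exists_isNewform_of_isNormalizedEigenform hg₀e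
  refine ⟨M, hM, g, hgn, fun ℓ hℓ hℓN => ?_⟩
  rw [hg ℓ hℓ (fun hℓM => hℓN (hℓM.trans hM₀)), hg₀ ℓ hℓ hℓN]

end Fermat.Agent.GE.Mod.MinLevel
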