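import Mathlib
import Fermat.Prelude.Def_WeierstrassCurve_ConductorLevel
import Fermat.Prelude.Def_FLTPrelim_ModularRep
import Fermat.Agent.GE.Mod.MinLevel
import Fermat.Agent.GE.Mod.Stab

/-!
# GATE-L / S58: the modular-side reduction (report 205 (0) + (1))

`S58 ⟸ (LOW) + (VAL)` for the newform companion, in hypothesis form.

Setting: `W/ℤ`, a level `N`, `W.IsModularModelOfLevel N` (witness `f`).  MINLEVEL produces a
newform `g` of level `M ∣ N` with `a_ℓ(g) = a_ℓ(W)` for `W`-good `ℓ ∤ N`.  If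

* (LOW)  `M ∣ W.conductorLevel`, and
* (VAL)  `a_ℓ(g) = a_ℓ(W)` for the `W`-good primes `ℓ ∣ N` (necessarily `ℓ ∤ M`),

then STAB (free level raising) yields a normalized eigenform of level `W.conductorLevel` with
`a_ℓ = a_ℓ(W)` at every `W`-good prime, i.e. `W.IsModularModelOfLevel W.conductorLevel`.

Also: the hypotheses of S58 force `W.Δ ≠ 0` and `N ≠ 0` (`disc_ne_zero_of_bad_dvd`).
-/

set_option autoImplicit false

open ModularFormClass CongruenceSubgroup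

namespace Fermat.Agent.GE.Mod.Reduce

open CuspForm WeierstrassCurve

/-- In S58 the level is nonzero (it is cube-free). -/
theorem level_ne_zero {N : ℕ} (hN3 : ∀ q : ℕ, q.Prime → ¬ q ^ 3 ∣ N) : N ≠ 0 := by
  rintro rfl
  exact hN3 2 Nat.prime_two (dvd_zero _)

/-- In S58 the discriminant is nonzero: otherwise every prime would divide the cube-free `N`. -/
theorem disc_ne_zero_of_bad_dvd (W : WeierstrassCurve ℤ) {N : ℕ}
    (hbad : ∀ ℓ : ℕ, ℓ.Prime → (ℓ : ℤ) ∣ W.Δ → ℓ ∣ N)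
    (hN0 : N ≠ 0) : W.Δ ≠ 0 := by
  intro hΔ
  obtain ⟨p, hpN, hp⟩ := Nat.exists_infinite_primes (N + 1)
  have hpd : p ∣ N := hbad p hp (by rw [hΔ]; exact dvd_zero _)
  have := Nat.le_of_dvd (Nat.pos_of_ne_zero hN0) hpd
  omega

/-- A `W`-good prime does not divide `W.conductorLevel`. -/
theorem not_dvd_conductorLevel_of_good (W : WeierstrassCurve ℤ) (hΔ : W.Δ ≠ 0) {ℓ : ℕ}
    (hℓ : ℓ.Prime) (hgood : W.IsGoodPrimeFor ℓ) : ¬ ℓ ∣ W.conductorLevel := fun h =>
  hgood ((W.prime_dvd_conductorLevel_iff hΔ hℓ).mp h)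

/-- **Assembly from a companion.**  A normalized eigenform `g` of level `M ∣ W.conductorLevel`
whose coefficients at all `W`-good primes are those of `W` makes `W` modular of level
`W.conductorLevel`. -/
theorem isModularModelOfLevel_conductorLevel_of_companion (W : WeierstrassCurve ℤ)
    (hΔ : W.Δ ≠ 0) {M : ℕ} (hM : M ∣ W.conductorLevel)
    {g : CuspForm (Gamma0 M) 2} (hg : g.IsNormalizedEigenform)
    (hgW : ∀ ℓ : ℕ, ℓ.Prime → W.IsGoodPrimeFor ℓ → qCoeff g ℓ = (W.apOfModel ℓ : ℂ)) :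
    W.IsModularModelOfLevel W.conductorLevel := by
  obtain ⟨g', hg', h⟩ := Stab.exists_raise_of_dvd hM W.squarefree_conductorLevel hg
  refine ⟨g', hg', fun p hp hgood _ => ?_⟩
  rw [h p hp (not_dvd_conductorLevel_of_good W hΔ hp hgood), hgW p hp hgood]

/-- The (LOW)+(VAL) gate for the newform companions of `W` at level `N`: every newform `g` of a
level `M ∣ N` whose coefficients at the `W`-good primes `ℓ ∤ N` are those of `W` has level
dividing `W.conductorLevel`, and has the coefficients of `W` also at the `W`-good primes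
`ℓ ∣ N`. -/
def LowValGate (W : WeierstrassCurve ℤ) (N : ℕ) : Prop :=
  ∀ (M : ℕ) (g : CuspForm (Gamma0 M) 2), M ∣ N → g.IsNewform →
    (∀ ℓ : ℕ, ℓ.Prime → W.IsGoodPrimeFor ℓ → ¬ ℓ ∣ N → qCoeff g ℓ = (W.apOfModel ℓ : ℂ)) →
    M ∣ W.conductorLevel ∧
      ∀ ℓ : ℕ, ℓ.Prime → W.IsGoodPrimeFor ℓ → ℓ ∣ N → ¬ ℓ ∣ M →
        qCoeff g ℓ = (W.apOfModel ℓ : ℂ)

/-- **S58 ⟸ (LOW) + (VAL).** -/
theorem isModularModelOfLevel_conductorLevel_of_lowValGate (W : WeierstrassCurve ℤ) (N : ℕ)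
    (hΔ : W.Δ ≠ 0) (hN : W.IsModularModelOfLevel N) (hgate : LowValGate W N) :
    W.IsModularModelOfLevel W.conductorLevel := by
  obtain ⟨f, hf, hfW⟩ := hN
  obtain ⟨M, hMN, g, hgn, hgf⟩ := MinLevel.exists_isNewform_of_isNormalizedEigenform hf
  have hgW : ∀ ℓ : ℕ, ℓ.Prime → W.IsGoodPrimeFor ℓ → ¬ ℓ ∣ N →
      qCoeff g ℓ = (W.apOfModel ℓ : ℂ) := fun ℓ hℓ hgood hℓN => by
    rw [hgf ℓ hℓ hℓN, hfW ℓ hℓ hgood hℓN]
  obtain ⟨hlow, hval⟩ := hgate M g hMN hgn hgW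
  refine isModularModelOfLevel_conductorLevel_of_companion W hΔ hlow hgn.1
    fun ℓ hℓ hgood => ?_
  by_cases hℓN : ℓ ∣ N
  · refine hval ℓ hℓ hgood hℓN fun hℓM => ?_
    exact not_dvd_conductorLevel_of_good W hΔ hℓ hgood (hℓM.trans hlow)
  · exact hgW ℓ hℓ hgood hℓN

/-- **S58 in gate form**: under the frozen hypotheses of S58 that matter on the modular side
(`hN`, `hbad`, `hN3`), the conclusion follows from the (LOW)+(VAL) gate. -/
theorem s58_of_lowValGate (W : WeierstrassCurve ℤ) (N : ℕ)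
    (hN : W.IsModularModelOfLevel N)
    (hbad : ∀ ℓ : ℕ, ℓ.Prime → (ℓ : ℤ) ∣ W.Δ → ℓ ∣ N)
    (hN3 : ∀ q : ℕ, q.Prime → ¬ q ^ 3 ∣ N) (hgate : LowValGate W N) :
    W.IsModularModelOfLevel W.conductorLevel :=
  isModularModelOfLevel_conductorLevel_of_lowValGate W N
    (disc_ne_zero_of_bad_dvd W hbad (level_ne_zero hN3)) hN hgate

end Fermat.Agent.GE.Mod.Reduce
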